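/-
S25 (Jacobian of a curve): shared interface between the algebraic side and the scheme side.

A curve over `k` is presented by two affine charts `Spec A`, `Spec B` glued along
`Spec W = Spec A[1/x] = Spec B[1/y]` with `x * y = 1` on the overlap.  A line bundle on
`C × Spec R` is a triple of modules over `R ⊗ A`, `R ⊗ B`, `R ⊗ W`.
-/
import Mathlib

set_option autoImplicit false

universe u

open scoped TensorProduct

namespace Fermat.Agent.Picard

/-- Two chart presentation of a smooth complete connected curve with a marked point. -/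
structure TwoChart (k : Type u) [Field k] where
  A : Type u
  B : Type u
  W : Type u
  [commRingA : CommRing A]
  [commRingB : CommRing B]
  [commRingW : CommRing W]
  [algA : Algebra k A]
  [algB : Algebra k B]
  [algW : Algebra k W]
  [algAW : Algebra A W]
  [algBW : Algebra B W]
  [towerAW : IsScalarTower k A W]
  [towerBW : IsScalarTower k B W]
  [dedekindA : IsDedekindDomain A]
  [dedekindB : IsDedekindDomain B]
  x : A
  y : B
  x_mul_y : algebraMap A W x * algebraMap B W y = 1
  [locA : IsLocalization.Away x W]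
  [locB : IsLocalization.Away y W]
  finite_x : (Polynomial.aeval x : Polynomial k →ₐ[k] A).toRingHom.Finite
  finite_y : (Polynomial.aeval y : Polynomial k →ₐ[k] B).toRingHom.Finite
  injective_x : Function.Injective (Polynomial.aeval x : Polynomial k →ₐ[k] A)
  injective_y : Function.Injective (Polynomial.aeval y : Polynomial k →ₐ[k] B)
  /-- completeness and connectedness: the global functions are the constants -/
  global_const : ∀ a b, algebraMap A W a = algebraMap B W b → ∃ r : k, a = algebraMap k A r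
  /-- the marked point, in the first chart -/
  ε : A →ₐ[k] k

attribute [instance] TwoChart.commRingA TwoChart.commRingB TwoChart.commRingW TwoChart.algA
  TwoChart.algB TwoChart.algW TwoChart.algAW TwoChart.algBW TwoChart.towerAW TwoChart.towerBW
  TwoChart.dedekindA TwoChart.dedekindB TwoChart.locA TwoChart.locB

namespace TwoChart

variable {k : Type u} [Field k] (X : TwoChart k)
variable (R : Type u) [CommRing R] [Algebra k R]

/-- `R ⊗ A → R ⊗ W`. -/
noncomputable def resA : R ⊗[k] X.A →+* R ⊗[k] X.W :=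
  (Algebra.TensorProduct.map (AlgHom.id R R) (IsScalarTower.toAlgHom k X.A X.W)).toRingHom

/-- `R ⊗ B → R ⊗ W`. -/
noncomputable def resB : R ⊗[k] X.B →+* R ⊗[k] X.W :=
  (Algebra.TensorProduct.map (AlgHom.id R R) (IsScalarTower.toAlgHom k X.B X.W)).toRingHom

/-- The section `ε` over `R`. -/
noncomputable def evalε : R ⊗[k] X.A →+* R :=
  ((Algebra.TensorProduct.rid k R R).toAlgHom.comp
    (Algebra.TensorProduct.map (AlgHom.id R R) X.ε)).toRingHom

/-- A line bundle on `C × Spec R` as a triple of modules. -/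
structure Tri where
  MA : Type u
  MB : Type u
  MW : Type u
  [acgA : AddCommGroup MA]
  [acgB : AddCommGroup MB]
  [acgW : AddCommGroup MW]
  [modA : Module (R ⊗[k] X.A) MA]
  [modB : Module (R ⊗[k] X.B) MB]
  [modW : Module (R ⊗[k] X.W) MW]
  [invA : Module.Invertible (R ⊗[k] X.A) MA]
  [invB : Module.Invertible (R ⊗[k] X.B) MB]
  [invW : Module.Invertible (R ⊗[k] X.W) MW]
  fA : MA →ₛₗ[X.resA R] MW
  fB : MB →ₛₗ[X.resB R] MW
  surjA : ∀ w : MW, ∃ (n : ℕ) (m : MA), ((1 : R) ⊗ₜ[k] algebraMap X.A X.W X.x) ^ n • w = fA m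
  injA : ∀ m : MA, fA m = 0 → ∃ n : ℕ, ((1 : R) ⊗ₜ[k] X.x) ^ n • m = 0
  surjB : ∀ w : MW, ∃ (n : ℕ) (m : MB), ((1 : R) ⊗ₜ[k] algebraMap X.B X.W X.y) ^ n • w = fB m
  injB : ∀ m : MB, fB m = 0 → ∃ n : ℕ, ((1 : R) ⊗ₜ[k] X.y) ^ n • m = 0

attribute [instance] Tri.acgA Tri.acgB Tri.acgW Tri.modA Tri.modB Tri.modW
  Tri.invA Tri.invB Tri.invW

variable {X R}

/-- Isomorphism of triples. -/
structure Tri.Equiv (L L' : X.Tri R) where
  eA : L.MA ≃ₗ[R ⊗[k] X.A] L'.MA
  eB : L.MB ≃ₗ[R ⊗[k] X.B] L'.MB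
  eW : L.MW ≃ₗ[R ⊗[k] X.W] L'.MW
  commA : ∀ m, eW (L.fA m) = L'.fA (eA m)
  commB : ∀ m, eW (L.fB m) = L'.fB (eB m)

end TwoChart

/-- `g` exhibits `N` as the extension of scalars of `M` along `φ`. -/
def IsScalarExtension {S T : Type u} [CommRing S] [CommRing T] (φ : S →+* T)
    {M N : Type u} [AddCommGroup M] [AddCommGroup N] [Module S M] [Module T N]
    (g : M →ₛₗ[φ] N) : Prop :=
  ∀ (P : Type u) [AddCommGroup P] [Module T P] (h : M →ₛₗ[φ] P),
    ∃! h' : N →ₗ[T] P, ∀ m, h' (g m) = h m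

namespace TwoChart

variable {k : Type u} [Field k] {X : TwoChart k}
variable {R R' : Type u} [CommRing R] [Algebra k R] [CommRing R'] [Algebra k R']

/-- `φ ⊗ id : R ⊗ S → R' ⊗ S`. -/
noncomputable def baseHom (φ : R →ₐ[k] R') (S : Type u) [CommRing S] [Algebra k S] :
    R ⊗[k] S →+* R' ⊗[k] S :=
  (Algebra.TensorProduct.map φ (AlgHom.id k S)).toRingHom

/-- A map exhibiting `L'` as the base change of `L` along `φ`. -/
structure Tri.Pullback (φ : R →ₐ[k] R') (L : X.Tri R) (L' : X.Tri R') where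
  gA : L.MA →ₛₗ[baseHom φ X.A] L'.MA
  gB : L.MB →ₛₗ[baseHom φ X.B] L'.MB
  gW : L.MW →ₛₗ[baseHom φ X.W] L'.MW
  commA : ∀ m, gW (L.fA m) = L'.fA (gA m)
  commB : ∀ m, gW (L.fB m) = L'.fB (gB m)
  univA : IsScalarExtension _ gA
  univB : IsScalarExtension _ gB
  univW : IsScalarExtension _ gW

end TwoChart

end Fermat.Agent.Picard
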