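/-
Cohomology of a sheaf given on two charts glued along the locus where the coordinate is
invertible (a "two chart module"): finiteness of the first cohomology, openness of its vanishing,
finiteness and projectivity of the zeroth cohomology when the first one vanishes, base change,
and twisting by the divisor at infinity.
-/
import Mathlib

set_option autoImplicit false

noncomputable section

namespace Fermat.Agent.Picard

open TensorProduct Polynomial

universe u v w

variable {R : Type u} [CommRing R]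
variable {M₀ M₁ M₂ : Type v} [AddCommGroup M₀] [Module R M₀] [AddCommGroup M₁] [Module R M₁]
  [AddCommGroup M₂] [Module R M₂]

/-- The Cech differential `(a, b) ↦ r₀ a - r₁ b`. -/
def cechDiff (r₀ : M₀ →ₗ[R] M₂) (r₁ : M₁ →ₗ[R] M₂) : M₀ × M₁ →ₗ[R] M₂ :=
  r₀.coprod (-r₁)

@[simp] theorem cechDiff_apply (r₀ : M₀ →ₗ[R] M₂) (r₁ : M₁ →ₗ[R] M₂) (a : M₀) (b : M₁) :
    cechDiff r₀ r₁ (a, b) = r₀ a - r₁ b := by
  simp [cechDiff, sub_eq_add_neg]

theorem mem_range_cechDiff_left (r₀ : M₀ →ₗ[R] M₂) (r₁ : M₁ →ₗ[R] M₂) (a : M₀) :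
    r₀ a ∈ LinearMap.range (cechDiff r₀ r₁) := ⟨(a, 0), by simp⟩

theorem mem_range_cechDiff_right (r₀ : M₀ →ₗ[R] M₂) (r₁ : M₁ →ₗ[R] M₂) (b : M₁) :
    r₁ b ∈ LinearMap.range (cechDiff r₀ r₁) := ⟨(0, -b), by simp⟩

/-- `M₂` is the common localisation of `M₀` at `X₀` and of `M₁` at `X₁`, with `X₁` corresponding
to the inverse of `X₀`. -/
structure IsTwoChart (X₀ : Module.End R M₀) (X₁ : Module.End R M₁) (T : M₂ ≃ₗ[R] M₂)
    (r₀ : M₀ →ₗ[R] M₂) (r₁ : M₁ →ₗ[R] M₂) : Prop where
  map_X₀ : ∀ a, r₀ (X₀ a) = T (r₀ a)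
  map_X₁ : ∀ b, r₁ (X₁ b) = T.symm (r₁ b)
  surj₀ : ∀ m, ∃ (n : ℕ) (a : M₀), r₀ a = (T ^ n) m
  surj₁ : ∀ m, ∃ (n : ℕ) (b : M₁), r₁ b = (T.symm ^ n) m
  injective₀ : Function.Injective r₀
  injective₁ : Function.Injective r₁

namespace IsTwoChart

variable {X₀ : Module.End R M₀} {X₁ : Module.End R M₁} {T : M₂ ≃ₗ[R] M₂}
  {r₀ : M₀ →ₗ[R] M₂} {r₁ : M₁ →ₗ[R] M₂}

protected theorem symm (h : IsTwoChart X₀ X₁ T r₀ r₁) : IsTwoChart X₁ X₀ T.symm r₁ r₀ where
  map_X₀ := h.map_X₁
  map_X₁ := by simpa using h.map_X₀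
  surj₀ := h.surj₁
  surj₁ := by simpa using h.surj₀
  injective₀ := h.injective₁
  injective₁ := h.injective₀

theorem map_X₀_pow (h : IsTwoChart X₀ X₁ T r₀ r₁) (n : ℕ) (a : M₀) :
    r₀ ((X₀ ^ n) a) = (T ^ n) (r₀ a) := by
  induction n with
  | zero => simp
  | succ n ih => simp [pow_succ', Module.End.mul_apply, h.map_X₀, ih]

theorem map_X₁_pow (h : IsTwoChart X₀ X₁ T r₀ r₁) (n : ℕ) (b : M₁) :
    r₁ ((X₁ ^ n) b) = (T.symm ^ n) (r₁ b) :=
  h.symm.map_X₀_pow n b

theorem pow_symm_pow (T : M₂ ≃ₗ[R] M₂) (n : ℕ) (m : M₂) : (T ^ n) ((T.symm ^ n) m) = m := by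
  have : T ^ n * T.symm ^ n = 1 := by
    show T ^ n * T⁻¹ ^ n = 1
    rw [← (Commute.mul_pow (Commute.refl T).inv_right n : (T * T⁻¹) ^ n = T ^ n * T⁻¹ ^ n)]
    simp
  simpa using LinearEquiv.congr_fun this m

theorem pow_apply_symm_pow_of_le (T : M₂ ≃ₗ[R] M₂) {k n : ℕ} (hkn : k ≤ n) (m : M₂) :
    (T ^ n) ((T.symm ^ k) m) = (T ^ (n - k)) m := by
  conv_lhs => rw [← Nat.sub_add_cancel hkn, pow_add]
  simp [pow_symm_pow]

/-- Finitely many generators of `M₁` over `R[X₁]` bound the generators needed for `H¹`: `H¹` is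
generated by `T ^ k (r₁ (f j))`, `k < N`. -/
theorem range_cechDiff_sup_span_eq_top (h : IsTwoChart X₀ X₁ T r₀ r₁) {ι : Type w} (f : ι → M₁)
    (hf : Submodule.span R (Set.range fun p : ι × ℕ => (X₁ ^ p.2) (f p.1)) = ⊤)
    (N : ℕ) (hN : ∀ j, ∃ a, r₀ a = (T ^ N) (r₁ (f j))) :
    LinearMap.range (cechDiff r₀ r₁) ⊔
      Submodule.span R (Set.range fun p : ι × Fin N => (T ^ (p.2 : ℕ)) (r₁ (f p.1))) = ⊤ := by
  set P := LinearMap.range (cechDiff r₀ r₁) ⊔
    Submodule.span R (Set.range fun p : ι × Fin N => (T ^ (p.2 : ℕ)) (r₁ (f p.1)))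
  have key : ∀ (b : M₁) (n : ℕ), (T ^ n) (r₁ b) ∈ P := by
    intro b
    have hb : b ∈ Submodule.span R (Set.range fun p : ι × ℕ => (X₁ ^ p.2) (f p.1)) := by
      rw [hf]; trivial
    induction hb using Submodule.span_induction with
    | mem x hx =>
      obtain ⟨⟨j, k⟩, rfl⟩ := hx
      intro n
      dsimp only
      by_cases hkn : n ≤ k
      · refine Submodule.mem_sup_left ?_
        obtain ⟨e, rfl⟩ := Nat.exists_eq_add_of_le hkn
        have : (T ^ n) (r₁ ((X₁ ^ (n + e)) (f j))) = r₁ ((X₁ ^ e) (f j)) := by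
          rw [h.map_X₁_pow, h.map_X₁_pow, pow_add, LinearEquiv.mul_apply, pow_symm_pow]
        rw [this]
        exact mem_range_cechDiff_right _ _ _
      · rw [h.map_X₁_pow, pow_apply_symm_pow_of_le T (le_of_not_ge hkn)]
        by_cases hlt : n - k < N
        · exact Submodule.mem_sup_right
            (Submodule.subset_span ⟨(j, ⟨n - k, hlt⟩), rfl⟩)
        · refine Submodule.mem_sup_left ?_
          obtain ⟨a, ha⟩ := hN j
          have hsplit : n - k = (n - k - N) + N := by omega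
          rw [hsplit, pow_add, LinearEquiv.mul_apply, ← ha, ← h.map_X₀_pow]
          exact mem_range_cechDiff_left _ _ _
    | zero => simp
    | add x y _ _ hx hy => intro n; simpa using P.add_mem (hx n) (hy n)
    | smul c x _ hx => intro n; simpa using P.smul_mem c (hx n)
  rw [eq_top_iff]
  intro m _
  obtain ⟨n, b, hb⟩ := h.surj₁ m
  have := key b n
  rwa [hb, pow_symm_pow] at this

theorem exists_bound (h : IsTwoChart X₀ X₁ T r₀ r₁) {ι : Type w} [Finite ι] (f : ι → M₁) :
    ∃ N : ℕ, ∀ j, ∃ a, r₀ a = (T ^ N) (r₁ (f j)) := by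
  cases nonempty_fintype ι
  choose n a ha using fun j => h.surj₀ (r₁ (f j))
  refine ⟨Finset.univ.sup n, fun j => ?_⟩
  obtain ⟨e, he⟩ := Nat.exists_eq_add_of_le (Finset.le_sup (f := n) (Finset.mem_univ j))
  refine ⟨(X₀ ^ e) (a j), ?_⟩
  rw [h.map_X₀_pow, ha, he, add_comm, pow_add, LinearEquiv.mul_apply]

/-- The first cohomology is a finite module. -/
theorem finite_coker (h : IsTwoChart X₀ X₁ T r₀ r₁) {ι : Type w} [Finite ι] (f : ι → M₁)
    (hf : Submodule.span R (Set.range fun p : ι × ℕ => (X₁ ^ p.2) (f p.1)) = ⊤) :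
    Module.Finite R (M₂ ⧸ LinearMap.range (cechDiff r₀ r₁)) := by
  obtain ⟨N, hN⟩ := h.exists_bound f
  set D := LinearMap.range (cechDiff r₀ r₁)
  set S := Submodule.span R (Set.range fun p : ι × Fin N => (T ^ (p.2 : ℕ)) (r₁ (f p.1)))
  have hDS : D ⊔ S = ⊤ := h.range_cechDiff_sup_span_eq_top f hf N hN
  have : Module.Finite R S := Module.Finite.iff_fg.mpr (Submodule.fg_span (Set.finite_range _))
  refine Module.Finite.of_surjective (D.mkQ ∘ₗ S.subtype) ?_
  intro x
  obtain ⟨m, rfl⟩ := D.mkQ_surjective x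
  have hm : m ∈ D ⊔ S := by rw [hDS]; trivial
  obtain ⟨d, hd, s, hs, rfl⟩ := Submodule.mem_sup.mp hm
  refine ⟨⟨s, hs⟩, ?_⟩
  simp [(Submodule.Quotient.mk_eq_zero D).mpr hd]

/-- Twisting by a multiple `N` of the divisor at infinity. -/
theorem twist (h : IsTwoChart X₀ X₁ T r₀ r₁) (N : ℕ) :
    IsTwoChart X₀ X₁ T r₀ ((T ^ N).toLinearMap ∘ₗ r₁) where
  map_X₀ := h.map_X₀
  map_X₁ b := by
    simp only [LinearMap.comp_apply, LinearEquiv.coe_coe, h.map_X₁]
    have hc : T ^ N * T⁻¹ = T⁻¹ * T ^ N :=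
      (((Commute.refl T).pow_left N).inv_right).eq
    exact LinearEquiv.congr_fun hc (r₁ b)
  surj₀ := h.surj₀
  surj₁ m := by
    obtain ⟨n, b, hb⟩ := h.surj₁ ((T.symm ^ N) m)
    refine ⟨n, b, ?_⟩
    simp only [LinearMap.comp_apply, LinearEquiv.coe_coe, hb]
    have hc : T ^ N * (T⁻¹ ^ n * T⁻¹ ^ N) = T⁻¹ ^ n := by
      rw [← mul_assoc, ((((Commute.refl T).pow_left N).inv_right).pow_right n).eq, mul_assoc,
        inv_pow T N, mul_inv_cancel, mul_one]
    exact LinearEquiv.congr_fun hc m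
  injective₀ := h.injective₀
  injective₁ := (T ^ N).injective.comp h.injective₁

/-- A large twist kills the first cohomology. -/
theorem exists_twist_surjective (h : IsTwoChart X₀ X₁ T r₀ r₁) {ι : Type w} [Finite ι] (f : ι → M₁)
    (hf : Submodule.span R (Set.range fun p : ι × ℕ => (X₁ ^ p.2) (f p.1)) = ⊤) :
    ∃ N₀ : ℕ, ∀ N, N₀ ≤ N →
      Function.Surjective (cechDiff r₀ ((T ^ N).toLinearMap ∘ₗ r₁)) := by
  obtain ⟨N₀, hN₀⟩ := h.exists_bound f
  refine ⟨N₀, fun N hN => ?_⟩
  rw [← LinearMap.range_eq_top, eq_top_iff, ← h.range_cechDiff_sup_span_eq_top f hf N₀ hN₀]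
  refine sup_le ?_ (Submodule.span_le.mpr ?_)
  · rintro m ⟨⟨a, b⟩, rfl⟩
    rw [cechDiff_apply]
    refine Submodule.sub_mem _ (mem_range_cechDiff_left _ _ _) ?_
    refine ⟨(0, -((X₁ ^ N) b)), ?_⟩
    simp [h.map_X₁_pow, pow_symm_pow]
  · rintro m ⟨⟨j, k, hk⟩, rfl⟩
    obtain ⟨e, he⟩ := Nat.exists_eq_add_of_le (le_of_lt (lt_of_lt_of_le hk hN))
    refine ⟨(0, -((X₁ ^ e) (f j))), ?_⟩
    simp only [cechDiff_apply, LinearMap.comp_apply, LinearEquiv.coe_coe, map_zero, zero_sub,
      map_neg, neg_neg, h.map_X₁_pow]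
    rw [he, pow_add, LinearEquiv.mul_apply, pow_symm_pow]

end IsTwoChart

/-- Coordinates presenting a module with an endomorphism as a finite projective `R[X]`-module. -/
structure PolyCoords (X₀ : Module.End R M₀) where
  /-- The number of coordinates. -/
  r : ℕ
  /-- The coordinates. -/
  coord : M₀ →ₗ[R] (Fin r → R[X])
  /-- The retraction. -/
  retr : (Fin r → R[X]) →ₗ[R] M₀
  retr_coord : ∀ a, retr (coord a) = a
  coord_X : ∀ a i, coord (X₀ a) i = Polynomial.X * coord a i
  retr_X : ∀ v, retr (fun i => Polynomial.X * v i) = X₀ (retr v)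

namespace PolyCoords

variable {X₀ : Module.End R M₀}

theorem coord_X_pow (c : PolyCoords X₀) (n : ℕ) (a : M₀) (i : Fin c.r) :
    c.coord ((X₀ ^ n) a) i = Polynomial.X ^ n * c.coord a i := by
  induction n with
  | zero => simp
  | succ n ih => simp [pow_succ', Module.End.mul_apply, c.coord_X, ih, mul_assoc]

/-- The finite piece of elements coming from coordinate vectors of degree at most `B`. -/
def degreeLE (c : PolyCoords X₀) (B : ℕ) : Submodule R M₀ :=
  Submodule.span R (Set.range fun p : Fin c.r × Fin (B + 1) =>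
    c.retr (Pi.single p.1 (Polynomial.X ^ (p.2 : ℕ))))

theorem degreeLE_fg (c : PolyCoords X₀) (B : ℕ) : (c.degreeLE B).FG :=
  Submodule.fg_span (Set.finite_range _)

theorem mem_degreeLE (c : PolyCoords X₀) (B : ℕ) (a : M₀)
    (ha : ∀ i, (c.coord a i).natDegree ≤ B) : a ∈ c.degreeLE B := by
  rw [← c.retr_coord a, ← Finset.univ_sum_single (c.coord a), map_sum]
  refine Submodule.sum_mem _ fun i _ => ?_
  have hL : c.retr (Pi.single i (c.coord a i)) =
      (c.retr ∘ₗ LinearMap.single R (fun _ : Fin c.r => R[X]) i) (c.coord a i) := rfl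
  rw [hL, as_sum_range' (c.coord a i) (B + 1) (Nat.lt_succ_of_le (ha i)), map_sum]
  refine Submodule.sum_mem _ fun k hk => ?_
  rw [← smul_X_eq_monomial, map_smul, LinearMap.comp_apply, LinearMap.single_apply]
  exact Submodule.smul_mem _ _
    (Submodule.subset_span ⟨(i, ⟨k, Finset.mem_range.mp hk⟩), rfl⟩)

theorem coord_injective (c : PolyCoords X₀) : Function.Injective c.coord :=
  Function.LeftInverse.injective c.retr_coord

theorem eq_zero_of_pow (c : PolyCoords X₀) (n : ℕ) (a : M₀) (h : (X₀ ^ n) a = 0) : a = 0 := by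
  refine c.coord_injective ?_
  rw [map_zero]
  ext1 i
  have h' := c.coord_X_pow n a i
  rw [h, map_zero] at h'
  ext d
  have := congrArg (fun p => Polynomial.coeff p (d + n)) h'.symm
  simpa [Polynomial.coeff_X_pow_mul] using this

theorem projective (c : PolyCoords X₀) : Module.Projective R M₀ :=
  Module.Projective.of_split c.coord c.retr (LinearMap.ext c.retr_coord)

/-- The generators given by the coordinate vectors. -/
def gen (c : PolyCoords X₀) : Fin c.r → M₀ := fun i => c.retr (Pi.single i 1)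

theorem retr_single_X_pow (c : PolyCoords X₀) (n : ℕ) (i : Fin c.r) :
    c.retr (Pi.single i (Polynomial.X ^ n)) = (X₀ ^ n) (c.gen i) := by
  induction n with
  | zero => simp [gen]
  | succ n ih =>
    rw [pow_succ' X₀, Module.End.mul_apply, ← ih, ← c.retr_X]
    congr 1
    ext1 j
    by_cases hji : j = i
    · subst hji; simp [pow_succ']
    · simp [hji]

theorem span_gen (c : PolyCoords X₀) :
    Submodule.span R (Set.range fun p : Fin c.r × ℕ => (X₀ ^ p.2) (c.gen p.1)) = ⊤ := by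
  rw [eq_top_iff]
  intro a _
  refine Submodule.span_mono ?_
    (c.mem_degreeLE (Finset.univ.sup fun i => (c.coord a i).natDegree) a
      fun i => Finset.le_sup (f := fun i => (c.coord a i).natDegree) (Finset.mem_univ i))
  rintro _ ⟨⟨i, d⟩, rfl⟩
  exact ⟨(i, (d : ℕ)), (c.retr_single_X_pow d i).symm⟩

end PolyCoords

namespace IsTwoChart

variable {X₀ : Module.End R M₀} {X₁ : Module.End R M₁} {T : M₂ ≃ₗ[R] M₂}
  {r₀ : M₀ →ₗ[R] M₂} {r₁ : M₁ →ₗ[R] M₂}

/-- Global sections have bounded degree in the coordinates of the first chart. -/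
theorem exists_degree_bound (h : IsTwoChart X₀ X₁ T r₀ r₁) (c : PolyCoords X₀)
    {ι : Type w} [Finite ι] (f : ι → M₁)
    (hf : Submodule.span R (Set.range fun p : ι × ℕ => (X₁ ^ p.2) (f p.1)) = ⊤) :
    ∃ B : ℕ, ∀ a b, r₀ a = r₁ b → a ∈ c.degreeLE B := by
  cases nonempty_fintype ι
  obtain ⟨N, hN⟩ := h.exists_bound f
  choose α hα using hN
  set B := Finset.univ.sup fun p : ι × Fin c.r => (c.coord (α p.1) p.2).natDegree
  refine ⟨B, fun a b hab => c.mem_degreeLE B a fun i => ?_⟩
  have key : ∀ b : M₁, ∃ K : ℕ, ∀ K' ≥ K, ∃ a' : M₀,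
      r₀ a' = (T ^ (N + K')) (r₁ b) ∧ (c.coord a' i).natDegree ≤ B + K' := by
    intro b
    have hb : b ∈ Submodule.span R (Set.range fun p : ι × ℕ => (X₁ ^ p.2) (f p.1)) := by
      rw [hf]; trivial
    induction hb using Submodule.span_induction with
    | mem x hx =>
      obtain ⟨⟨j, k⟩, rfl⟩ := hx
      refine ⟨k, fun K' hK' => ⟨(X₀ ^ (K' - k)) (α j), ?_, ?_⟩⟩
      · dsimp only
        rw [h.map_X₀_pow, hα, h.map_X₁_pow,
          pow_apply_symm_pow_of_le T (le_add_left hK'), ← LinearEquiv.mul_apply, ← pow_add]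
        congr 2
        omega
      · rw [c.coord_X_pow]
        refine (natDegree_mul_le).trans ?_
        have h1 : (c.coord (α j) i).natDegree ≤ B :=
          Finset.le_sup (f := fun p : ι × Fin c.r => (c.coord (α p.1) p.2).natDegree)
            (Finset.mem_univ (j, i))
        have h2 := natDegree_X_pow_le (R := R) (K' - k)
        omega
    | zero => exact ⟨0, fun K' _ => ⟨0, by simp, by simp⟩⟩
    | add x y _ _ hx hy =>
      obtain ⟨K₁, h₁⟩ := hx
      obtain ⟨K₂, h₂⟩ := hy
      refine ⟨max K₁ K₂, fun K' hK' => ?_⟩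
      obtain ⟨a₁, ha₁, hd₁⟩ := h₁ K' (le_of_max_le_left hK')
      obtain ⟨a₂, ha₂, hd₂⟩ := h₂ K' (le_of_max_le_right hK')
      refine ⟨a₁ + a₂, by simp [ha₁, ha₂], ?_⟩
      rw [map_add, Pi.add_apply]
      exact (natDegree_add_le _ _).trans (max_le hd₁ hd₂)
    | smul s x _ hx =>
      obtain ⟨K₁, h₁⟩ := hx
      refine ⟨K₁, fun K' hK' => ?_⟩
      obtain ⟨a₁, ha₁, hd₁⟩ := h₁ K' hK'
      refine ⟨s • a₁, by simp [ha₁], ?_⟩
      rw [map_smul, Pi.smul_apply]
      exact (natDegree_smul_le _ _).trans hd₁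
  obtain ⟨K, hK⟩ := key b
  obtain ⟨a', ha', hd⟩ := hK K le_rfl
  have : a' = (X₀ ^ (N + K)) a := h.injective₀ (by rw [ha', h.map_X₀_pow, hab])
  rw [this, c.coord_X_pow] at hd
  by_cases hp : c.coord a i = 0
  · simp [hp]
  · haveI : Nontrivial R := nontrivial_of_ne _ _ fun h01 : (0 : R) = 1 => hp (by
      have := subsingleton_of_zero_eq_one h01
      exact Subsingleton.elim _ _)
    rw [mul_comm, natDegree_mul_X_pow _ hp] at hd
    omega

/-- When the first cohomology vanishes, the zeroth one is finite. -/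
theorem finite_ker (h : IsTwoChart X₀ X₁ T r₀ r₁) (c₀ : PolyCoords X₀) (c₁ : PolyCoords X₁)
    {ι₀ : Type w} [Finite ι₀] (e : ι₀ → M₀)
    (he : Submodule.span R (Set.range fun p : ι₀ × ℕ => (X₀ ^ p.2) (e p.1)) = ⊤)
    {ι : Type w} [Finite ι] (f : ι → M₁)
    (hf : Submodule.span R (Set.range fun p : ι × ℕ => (X₁ ^ p.2) (f p.1)) = ⊤)
    (hs : Function.Surjective (cechDiff r₀ r₁)) [Module.Projective R M₂] :
    Module.Finite R (LinearMap.ker (cechDiff r₀ r₁)) := by
  obtain ⟨B₀, hB₀⟩ := h.exists_degree_bound c₀ f hf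
  obtain ⟨B₁, hB₁⟩ := h.symm.exists_degree_bound c₁ e he
  set d := cechDiff r₀ r₁ with hd
  obtain ⟨σ, hσ⟩ := Module.projective_lifting_property d LinearMap.id hs
  let S : Submodule R (M₀ × M₁) := (c₀.degreeLE B₀).prod (c₁.degreeLE B₁)
  have hS : S.FG := (c₀.degreeLE_fg B₀).prod (c₁.degreeLE_fg B₁)
  have : Module.Finite R S := Module.Finite.iff_fg.mpr hS
  let π : M₀ × M₁ →ₗ[R] LinearMap.ker d :=
    LinearMap.codRestrict _ (LinearMap.id - σ ∘ₗ d) fun x => by
      have := LinearMap.congr_fun hσ (d x)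
      simp only [LinearMap.comp_apply, LinearMap.id_apply] at this
      simp [this]
  refine Module.Finite.of_surjective (π ∘ₗ S.subtype) ?_
  rintro ⟨⟨a, b⟩, hab⟩
  have h0 : r₀ a = r₁ b := by
    rw [LinearMap.mem_ker, hd, cechDiff_apply, sub_eq_zero] at hab
    exact hab
  refine ⟨⟨(a, b), ⟨hB₀ a b h0, hB₁ b a h0.symm⟩⟩, ?_⟩
  apply Subtype.ext
  simp [π, LinearMap.mem_ker.mp hab]

end IsTwoChart

section Split

variable {M : Type v} {N : Type w} [AddCommGroup M] [Module R M] [AddCommGroup N] [Module R N]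

theorem projective_ker_of_surjective [Module.Projective R M] [Module.Projective R N]
    (d : M →ₗ[R] N) (hs : Function.Surjective d) : Module.Projective R (LinearMap.ker d) := by
  obtain ⟨σ, hσ⟩ := Module.projective_lifting_property d LinearMap.id hs
  have hσ' : ∀ y, d (σ y) = y := fun y => LinearMap.congr_fun hσ y
  refine Module.Projective.of_split (LinearMap.ker d).subtype
    (LinearMap.codRestrict _ (LinearMap.id - σ ∘ₗ d) fun x => by simp [hσ']) ?_
  ext ⟨x, hx⟩
  simp [LinearMap.mem_ker.mp hx]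

variable (S : Type*) [CommRing S] [Algebra R S]

/-- Formation of the kernel of a surjection onto a projective module commutes with base change. -/
def baseChangeKerEquiv [Module.Projective R N] (d : M →ₗ[R] N) (hs : Function.Surjective d) :
    S ⊗[R] LinearMap.ker d ≃ₗ[S] LinearMap.ker (d.baseChange S) :=
  LinearEquiv.ofBijective
    (LinearMap.codRestrict _ ((LinearMap.ker d).subtype.baseChange S) fun x => by
      rw [LinearMap.mem_ker]
      induction x with
      | zero => simp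
      | tmul s m => simp [LinearMap.mem_ker.mp m.2]
      | add x y hx hy => simp [hx, hy]) (by
    obtain ⟨σ, hσ⟩ := Module.projective_lifting_property d LinearMap.id hs
    have hσ' : ∀ y, d (σ y) = y := fun y => LinearMap.congr_fun hσ y
    let π : M →ₗ[R] LinearMap.ker d :=
      LinearMap.codRestrict _ (LinearMap.id - σ ∘ₗ d) fun x => by simp [hσ']
    have h1 : ∀ x, π.baseChange S ((LinearMap.ker d).subtype.baseChange S x) = x := fun x => by
      induction x with
      | zero => simp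
      | tmul s m =>
        have : π m = m := Subtype.ext (by simp [π, LinearMap.mem_ker.mp m.2])
        simp [this]
      | add x y hx hy => simp [hx, hy]
    have h2 : ∀ x, (LinearMap.ker d).subtype.baseChange S (π.baseChange S x) =
        x - σ.baseChange S (d.baseChange S x) := fun x => by
      induction x with
      | zero => simp
      | tmul s m => simp [π, tmul_sub]
      | add x y hx hy => simp only [map_add, hx, hy]; abel
    refine ⟨fun x y hxy => ?_, ?_⟩
    · rw [← h1 x, ← h1 y]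
      exact congrArg (π.baseChange S) (Subtype.ext_iff.mp hxy)
    rintro ⟨y, hy⟩
    refine ⟨π.baseChange S y, Subtype.ext ?_⟩
    simpa [LinearMap.mem_ker.mp hy] using h2 y)

theorem subsingleton_baseChange_coker_iff (d : M →ₗ[R] N) :
    Subsingleton (S ⊗[R] (N ⧸ LinearMap.range d)) ↔ Function.Surjective (d.baseChange S) := by
  have hex : Function.Exact (d.lTensor S) ((LinearMap.range d).mkQ.lTensor S) :=
    lTensor_exact S (LinearMap.exact_map_mkQ_range d) (Submodule.mkQ_surjective _)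
  have hsurj : Function.Surjective ((LinearMap.range d).mkQ.lTensor S) :=
    LinearMap.lTensor_surjective S (Submodule.mkQ_surjective _)
  rw [LinearMap.baseChange_eq_ltensor]
  constructor
  · intro hsub y
    exact (hex y).mp (Subsingleton.elim _ _)
  · intro hs
    refine subsingleton_of_forall_eq 0 fun z => ?_
    obtain ⟨y, rfl⟩ := hsurj z
    exact (hex y).mpr (hs y)

/-- Surjectivity at a residue field spreads to a basic open neighbourhood. -/
theorem exists_surjective_baseChange_of_residueField (d : M →ₗ[R] N)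
    [Module.Finite R (N ⧸ LinearMap.range d)] (p : PrimeSpectrum R)
    (hs : Function.Surjective (d.baseChange p.asIdeal.ResidueField)) :
    ∃ f ∉ p.asIdeal, ∀ (S : Type u) [CommRing S] [Algebra R S], IsUnit (algebraMap R S f) →
      Function.Surjective (d.baseChange S) := by
  have h0 : p ∉ Module.support R (N ⧸ LinearMap.range d) := by
    rw [Module.mem_support_iff_nontrivial_residueField_tensorProduct, not_nontrivial_iff_subsingleton,
      subsingleton_baseChange_coker_iff]
    exact hs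
  rw [Module.mem_support_iff_of_finite] at h0
  obtain ⟨f, hf, hfp⟩ := SetLike.not_le_iff_exists.mp h0
  refine ⟨f, hfp, fun S _ _ hu => ?_⟩
  rw [← subsingleton_baseChange_coker_iff]
  refine subsingleton_of_forall_eq 0 fun z => ?_
  induction z with
  | zero => rfl
  | tmul s q =>
    obtain ⟨u, hu⟩ := hu
    have : s ⊗ₜ[R] q = ((↑u⁻¹ : S) * s) ⊗ₜ[R] (f • q) := by
      rw [← smul_tmul, Algebra.smul_def, ← hu, ← mul_assoc, Units.mul_inv, one_mul]
    rw [this, Module.mem_annihilator.mp hf q, tmul_zero]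
  | add x y hx hy => rw [hx, hy, add_zero]

end Split

end Fermat.Agent.Picard
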