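/-
S25: interface between a curve scheme and its two chart presentation.
-/
import Fermat.Agent.Picard.Data
import Fermat.Prelude.Def_AlgebraicGeometry_RelativePicardFunctor

set_option autoImplicit false

universe u

open CategoryTheory CategoryTheory.Limits AlgebraicGeometry NeronModelInfra

namespace Fermat.Agent.Picard

/-- A two chart presentation of the curve `c` marked by `ε`. -/
structure CurveModel {k : Type u} [Field k] {C : Scheme.{u}}
    (c : C ⟶ Spec (CommRingCat.of k))
    (ε : SchemeHomOver (𝟙 (Spec (CommRingCat.of k))) c) where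
  X : TwoChart k
  iA : Spec (CommRingCat.of X.A) ⟶ C
  iB : Spec (CommRingCat.of X.B) ⟶ C
  [openA : IsOpenImmersion iA]
  [openB : IsOpenImmersion iB]
  iA_c : iA ≫ c = Spec.map (CommRingCat.ofHom (algebraMap k X.A))
  iB_c : iB ≫ c = Spec.map (CommRingCat.ofHom (algebraMap k X.B))
  cover : iA.opensRange ⊔ iB.opensRange = ⊤
  /-- the overlap is `Spec W` -/
  isPullback : IsPullback (Spec.map (CommRingCat.ofHom (algebraMap X.A X.W)))
    (Spec.map (CommRingCat.ofHom (algebraMap X.B X.W))) iA iB
  ε_eq : Spec.map (CommRingCat.ofHom X.ε.toRingHom) ≫ iA = ε.1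

attribute [instance] CurveModel.openA CurveModel.openB

end Fermat.Agent.Picard
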